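import Fermat.Agent.S59.TW.H788.GalR

/-!
# Row S59 / row HARD, leaf GAL-R in GENERAL form  (helper788)

`galR_datum788`: the statement of `H314.GalRStatement` for ANY Hecke–Galois datum
`H : CuspForm.HeckeGaloisRepDatum N S 𝒪 θ T` (any level `N`, any finite set `S ∋ p` containing the
primes of `N`, any coefficient ring `T`), any prime `q` with `p ∣ q - 1` at which the residual
representation of `H.ρ` is unramified, and a newform point `emb : T → O'` given in primitive terms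
(`M`, `g`, `chig`, `iota`, compatibility at the `T_ℓ`).  No package, no `ρ̄`, no Taylor–Wiles set:
the absolute irreducibility is the field `residual_absIrr` of the datum and the determinant is
cyclotomic by `charpoly_frob` (`S59.H540`).

Use: the twin `IAGalRStatement` of row HARD (`Sig = Smin ∪ Piv ∪ Q`) and `H314.GalRStatement`
(`Sig = Smin ∪ Q`) are unpackings of this statement.
-/

set_option autoImplicit false
set_option linter.unusedSectionVars false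
set_option linter.unusedVariables false
set_option linter.style.haveILetI false
set_option maxHeartbeats 1000000
set_option synthInstance.maxHeartbeats 400000

open Polynomial IsLocalRing CongruenceSubgroup

namespace Fermat.Agent.S59.TW.H788

open Fermat.Agent.S59.Arch Fermat.Agent.S59.TW Fermat.Agent.S59.TW.H959

/-- The determinant of a Hecke–Galois datum is cyclotomic. -/
theorem detIsCyclotomic_datum788 (p : ℕ) [Fact p.Prime]
    {𝒪 : Type} [CommRing 𝒪] [IsDomain 𝒪] [IsDiscreteValuationRing 𝒪]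
    [IsAdicComplete (maximalIdeal 𝒪) 𝒪] (hp𝒪 : (p : 𝒪) ∈ maximalIdeal 𝒪)
    {N : ℕ} [NeZero N] {S : Finset ℕ} (hNS : ∀ q : ℕ, q.Prime → q ∣ N → q ∈ S)
    {θ : CuspForm.heckeAlgebra N 2 (↑S : Set ℕ) →+* ResidueField 𝒪}
    {T : Type} [CommRing T] [IsLocalRing T] [IsNoetherianRing T]
    [IsAdicComplete (maximalIdeal T) T] [Algebra 𝒪 T] [IsLocalHom (algebraMap 𝒪 T)]
    [Module.Finite 𝒪 T] [Module.Free 𝒪 T]
    (H : CuspForm.HeckeGaloisRepDatum N (↑S : Set ℕ) 𝒪 θ T) :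
    H.ρ.DetIsCyclotomic p := by
  have hpT : (p : T) ∈ maximalIdeal T :=
    natCast_mem_of_isLocalHom788 (algebraMap 𝒪 T) inferInstance p hp𝒪
  refine Fermat.Agent.S59.H540.detIsCyclotomic_of_frob H.ρ p hpT S ?_
  intro ℓ hℓ hℓS B hB τ hτ
  have hℓN : ¬ ℓ ∣ N := fun hd => hℓS (hNS ℓ hℓ hd)
  have hℓS' : ℓ ∉ (↑S : Set ℕ) := fun hd => hℓS (Finset.mem_coe.mp hd)
  exact Fermat.Agent.S59.H540.det_eq_of_charpoly H.ρ.finrank_eq _ _ _
    (H.charpoly_frob ℓ hℓ hℓN hℓS' B hB τ hτ)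

/-- **GAL-R for an arbitrary Hecke–Galois datum.** -/
theorem galR_datum788 (h36 : Fermat.Agent.S58.S36Statement)
    (p : ℕ) [Fact p.Prime] (hp2 : p ≠ 2)
    (𝒪 : Type) [CommRing 𝒪] [IsDomain 𝒪] [IsDiscreteValuationRing 𝒪]
    [IsAdicComplete (maximalIdeal 𝒪) 𝒪] (hp𝒪 : (p : 𝒪) ∈ maximalIdeal 𝒪)
    (N : ℕ) [NeZero N] (S : Finset ℕ) (hpS : p ∈ S)
    (hNS : ∀ q : ℕ, q.Prime → q ∣ N → q ∈ S)
    (θ : CuspForm.heckeAlgebra N 2 (↑S : Set ℕ) →+* ResidueField 𝒪)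
    (T : Type) [CommRing T] [IsLocalRing T] [IsNoetherianRing T]
    [IsAdicComplete (maximalIdeal T) T] [Algebra 𝒪 T] [IsLocalHom (algebraMap 𝒪 T)]
    [Module.Finite 𝒪 T] [Module.Free 𝒪 T]
    (H : CuspForm.HeckeGaloisRepDatum N (↑S : Set ℕ) 𝒪 θ T)
    (q : ℕ) (hq : q.Prime) (hpq : p ∣ q - 1) (hunr : H.ρ.residual.IsUnramifiedAt q)
    (P : ValuationSubring (AlgebraicClosure ℚ)) (hP : P.LiesOverPrime q)
    (φ : AlgebraicClosure ℚ ≃ₐ[ℚ] AlgebraicClosure ℚ) (hφ : P.IsFrobeniusAt φ q)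
    (σ : AlgebraicClosure ℚ ≃ₐ[ℚ] AlgebraicClosure ℚ) (hσ : σ ∈ P.inertiaSubgroupIn ℚ)
    (u : (ZMod q)ˣ) (hu : orderOf u = q - 1) (hcyc : CycloAt q σ (u : ZMod q).val)
    (a₀ w : T) (hw : IsInertiaValue H.ρ φ σ a₀ w)
    (O' : Type) [CommRing O'] [IsDomain O'] [IsDiscreteValuationRing O']
    [IsAdicComplete (maximalIdeal O') O'] [Finite (ResidueField O')] [CharZero O']
    (emb : T →+* O') (hemb : IsLocalHom emb)
    (M : ℕ) [NeZero M] (g : CuspForm (Gamma0 M) 2) (hg : g.IsNewform)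
    (hfact : M.factorization q = 2) (hMS : ∀ q' : ℕ, q'.Prime → q' ∣ M → q' ∈ S)
    (chig : CuspForm.heckeAlgebra M 2 (↑S : Set ℕ) →+* ℂ)
    (hchig : ∀ (ℓ : ℕ) (hℓ : ℓ.Prime) (hℓM : ¬ ℓ ∣ M) (hℓS : ℓ ∉ (↑S : Set ℕ)),
      chig (CuspForm.heckeAlgebra.T hℓ hℓM hℓS) = ModularFormClass.qCoeff g ℓ)
    (iota : chig.range →+* O')
    (hcompat : ∀ (ℓ : ℕ) (hℓ : ℓ.Prime) (hℓN : ¬ ℓ ∣ N) (hℓM : ¬ ℓ ∣ M)
      (hℓS : ℓ ∉ (↑S : Set ℕ)),
      iota (chig.rangeRestrict (CuspForm.heckeAlgebra.T hℓ hℓM hℓS)) =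
        emb (H.π (CuspForm.heckeAlgebra.T hℓ hℓN hℓS))) :
    emb w ≠ 1 := by
  intro hone
  classical
  have hp : p.Prime := Fact.out
  have hdet : H.ρ.DetIsCyclotomic p := detIsCyclotomic_datum788 p hp𝒪 hNS H
  have hpT : (p : T) ∈ maximalIdeal T := hdet.1
  have hqp : q ≠ p := by
    rintro rfl
    have h1 := Nat.le_of_dvd (by have := hq.two_le; omega) hpq
    have := hq.two_le
    omega
  have hgood : ∀ ℓ : ℕ, ℓ.Prime → ℓ ∉ S →
      ¬ ℓ ∣ N ∧ ¬ ℓ ∣ M ∧ ℓ ∉ (↑S : Set ℕ) ∧ ℓ ≠ p := by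
    intro ℓ hℓ hℓS
    exact ⟨fun hd => hℓS (hNS ℓ hℓ hd), fun hd => hℓS (hMS ℓ hℓ hd),
      fun hd => hℓS (Finset.mem_coe.mp hd), fun e => hℓS (e ▸ hpS)⟩
  have hpO' : (p : O') ∈ maximalIdeal O' := natCast_mem_of_isLocalHom788 emb hemb p hpT
  -- the frozen S36
  obtain ⟨O'', j1, j2, j3, j4, j5, j6, j7, j8, j9, hinj, ρ'', hρ'', hnu⟩ :=
    h36 hg p S O' hpO' hp2 chig hchig iota hpS hMS (by
      intro O₃ _ _ _ _ _ _ _ _ _ _ ρ hρ
      have hloc₃ : IsLocalHom ((algebraMap O' O₃).comp emb) :=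
        haveI := hemb
        RingHom.isLocalHom_comp _ _
      haveI := hloc₃
      have hpO₃ : (p : O₃) ∈ maximalIdeal O₃ :=
        natCast_mem_of_isLocalHom788 _ hloc₃ p hpT
      have hfrob : ∀ ℓ : ℕ, ℓ.Prime → ℓ ∉ S →
          ∀ B : ValuationSubring (AlgebraicClosure ℚ), B.LiesOverPrime ℓ →
            ∀ τ : AlgebraicClosure ℚ ≃ₐ[ℚ] AlgebraicClosure ℚ, B.IsFrobeniusAt τ ℓ →
              LinearMap.charpoly (ρ.ρ τ) =
                (LinearMap.charpoly (H.ρ.ρ τ)).map ((algebraMap O' O₃).comp emb) := by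
        intro ℓ hℓ hℓS B hB τ hτ
        obtain ⟨hℓN, hℓM, hℓS', hℓp⟩ := hgood ℓ hℓ hℓS
        rw [hρ ℓ hℓ hℓp hℓM hℓS' B hB τ hτ, H.charpoly_frob ℓ hℓ hℓN hℓS' B hB τ hτ,
          RingHom.comp_apply, hcompat ℓ hℓ hℓN hℓM hℓS']
        simp only [Polynomial.map_add, Polynomial.map_sub, Polynomial.map_mul,
          Polynomial.map_pow, Polynomial.map_X, Polynomial.map_C, map_natCast,
          Polynomial.map_natCast, RingHom.comp_apply]
      refine ⟨?_, ?_⟩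
      · refine Fermat.Agent.S58.H273.residual_absIrr_of_frob H.ρ.residual H.residual_absIrr
          (ResidueField.map ((algebraMap O' O₃).comp emb)) ρ S ?_
        intro ℓ hℓ hℓS B hB τ hτ
        rw [hfrob ℓ hℓ hℓS B hB τ hτ, map_residue_map788, ← charpoly_residual788]
      · intro c hc hc1
        have hcyc₃ : ρ.DetIsCyclotomic p :=
          Fermat.Agent.S59.H540.detIsCyclotomic_of_frob ρ p hpO₃ S (by
              intro ℓ hℓ hℓS B hB τ hτ
              obtain ⟨hℓN, hℓM, hℓS', hℓp⟩ := hgood ℓ hℓ hℓS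
              exact Fermat.Agent.S59.H540.det_eq_of_charpoly ρ.finrank_eq _ _ _
                (hρ ℓ hℓ hℓp hℓM hℓS' B hB τ hτ))
        have h1 : LinearMap.det (ρ.ρ c) = -1 :=
          Fermat.Agent.S59.G4.H178.det_involution_eq_neg_one ρ p hp2 hcyc₃ c hc hc1
        have h2 : LinearMap.det (ρ.residual.ρ c)
            = algebraMap O₃ (ResidueField O₃) (LinearMap.det (ρ.ρ c)) :=
          LinearMap.det_baseChange (ρ.ρ c)
        rw [h2, h1, map_neg, map_one])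
  -- the comparison
  have hloc : IsLocalHom ((algebraMap O' O'').comp emb) :=
    haveI := hemb
    RingHom.isLocalHom_comp _ _
  have hψw : ((algebraMap O' O'').comp emb) w = 1 := by
    rw [RingHom.comp_apply, hone, map_one]
  have hunip := isUnipotentOnInertiaAt_baseChangeAlong788 p T hpT H.ρ hdet q hq
    hpq hunr P hP φ hφ σ hσ u hu hcyc a₀ w hw ((algebraMap O' O'').comp emb) hloc hψw
  have hcheb := Fermat.Agent.S58.H93.chebCharpoly O'' ρ''
    (H.ρ.baseChangeAlong ((algebraMap O' O'').comp emb) hloc) S (by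
      intro ℓ hℓ hℓS B hB τ hτ
      obtain ⟨hℓN, hℓM, hℓS', hℓp⟩ := hgood ℓ hℓ hℓS
      rw [hρ'' ℓ hℓ hℓM hℓS' B hB τ hτ, charpoly_baseChangeAlong788,
        H.charpoly_frob ℓ hℓ hℓN hℓS' B hB τ hτ, RingHom.comp_apply,
        hcompat ℓ hℓ hℓN hℓM hℓS']
      simp only [Polynomial.map_add, Polynomial.map_sub, Polynomial.map_mul,
        Polynomial.map_pow, Polynomial.map_X, Polynomial.map_C, map_natCast,
        Polynomial.map_natCast, RingHom.comp_apply])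
  refine hnu q hq hqp hfact ?_
  intro P' hP' τ hτ
  rw [hcheb τ]
  exact hunip P' hP' τ hτ

end Fermat.Agent.S59.TW.H788
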