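import Fermat.Agent.S59.TW.Spec
import Fermat.Agent.S59.H307.Glue
import Fermat.Agent.S59.H765.TraceClosed
import Fermat.Agent.S59.G4.H178.Odd
import Fermat.Agent.S59.G4.H307.Desc

/-!
# Row S59, cell TW, layer 2: leaf RESG (helper788)

`resGal : Fermat.Agent.S59.TW.ResGalStatement`: a restriction map `res : T_{Σ'} → T_Σ` between two
Hecke packages is a local homomorphism and `ρ_{T_{Σ'}} ⊗_res T_Σ ≅ ρ_{T_Σ}`.

* `isLocalHom_of_finite`: an algebra homomorphism between local algebras over a Noetherian local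
  ring `𝒪`, the source finite over `𝒪` and the structure map of the target local, is local.
* `trace_baseChangeAlong`: `tr (ρ ⊗_φ B)(σ) = φ (tr ρ(σ))`.
* `map_trace_eq_of_frob`: two representations over `T'`, `T` (`φ : T' → T` local, `T` Noetherian)
  whose traces correspond at the Frobenius elements of almost all primes have corresponding traces
  everywhere (Chebotarev + continuity + Krull).
* `resGal`: traces at Frobenius from `charpoly_frob` + `IsRestriction`; oddness from the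
  cyclotomic determinant (`G4.H178`), rigidity `H307.isEquiv_of_trace_eq`.
-/

set_option autoImplicit false
set_option linter.style.haveILetI false

open Polynomial IsLocalRing

namespace Fermat.Agent.S59.TW.H788

open Fermat.Agent.S59.Arch Fermat.Agent.S59.TW.H959 Fermat.Agent.S59.TW

section Local

/-- An algebra homomorphism between local `𝒪`-algebras, the source finite over the Noetherian
local ring `𝒪` and the structure map of the target local, is a local homomorphism. -/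
theorem isLocalHom_of_finite {𝒪 T' T : Type*} [CommRing 𝒪] [IsLocalRing 𝒪] [IsNoetherianRing 𝒪]
    [CommRing T'] [IsLocalRing T'] [Algebra 𝒪 T'] [Module.Finite 𝒪 T']
    [CommRing T] [IsLocalRing T] [Algebra 𝒪 T] [IsLocalHom (algebraMap 𝒪 T)]
    (res : T' →ₐ[𝒪] T) : IsLocalHom (res : T' →+* T) := by
  constructor
  intro a ha
  by_contra hna
  have ham : a ∈ maximalIdeal T' := (IsLocalRing.mem_maximalIdeal a).mpr hna
  obtain ⟨e, he⟩ := Fermat.Agent.S59.H765.exists_maximalIdeal_pow_le_map765 (𝒪 := 𝒪) (T := T')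
  have h1 : a ^ e ∈ (maximalIdeal 𝒪).map (algebraMap 𝒪 T') := he (Ideal.pow_mem_pow ham e)
  have h2 : (res : T' →+* T) (a ^ e) ∈
      ((maximalIdeal 𝒪).map (algebraMap 𝒪 T')).map (res : T' →+* T) :=
    Ideal.mem_map_of_mem _ h1
  rw [Ideal.map_map, res.comp_algebraMap] at h2
  have h4 : (maximalIdeal 𝒪).map (algebraMap 𝒪 T) ≤ maximalIdeal T :=
    ((local_hom_TFAE (algebraMap 𝒪 T)).out 0 2 rfl rfl).mp inferInstance
  have h5 : (res : T' →+* T) a ^ e ∈ maximalIdeal T := by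
    rw [← map_pow]; exact h4 h2
  have h6 : (res : T' →+* T) a ∈ maximalIdeal T :=
    Ideal.IsPrime.mem_of_pow_mem inferInstance e h5
  exact (IsLocalRing.mem_maximalIdeal _).mp h6 ha

end Local

section Trace

variable {T' T : Type} [CommRing T'] [IsLocalRing T'] [CommRing T] [IsLocalRing T]

/-- The trace of a base change. -/
theorem trace_baseChangeAlong (φ : T' →+* T) (hφ : IsLocalHom φ) (ρ : GaloisRepAdic T')
    (σ : GQ) : (ρ.baseChangeAlong φ hφ).trace σ = φ (ρ.trace σ) := by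
  letI : Algebra T' T := φ.toAlgebra
  exact LinearMap.trace_baseChange (ρ.ρ σ) T

/-- Traces which correspond at the Frobenius elements of almost all primes correspond
everywhere. -/
theorem map_trace_eq_of_frob [IsNoetherianRing T] (φ : T' →+* T) (hφ : IsLocalHom φ)
    (ρ' : GaloisRepAdic T') (ρ : GaloisRepAdic T) (F : Finset ℕ)
    (h : ∀ ℓ : ℕ, ℓ.Prime → ℓ ∉ F → ∀ B : ValuationSubring Qb, B.LiesOverPrime ℓ →
      ∀ τ : GQ, B.IsFrobeniusAt τ ℓ → φ (ρ'.trace τ) = ρ.trace τ) (σ : GQ) :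
    φ (ρ'.trace σ) = ρ.trace σ := by
  have hmem : φ (ρ'.trace σ) - ρ.trace σ ∈ (⨅ n : ℕ, maximalIdeal T ^ n : Ideal T) := by
    rw [Ideal.mem_iInf]
    intro n
    obtain ⟨L₁, hL₁, hc₁⟩ := Fermat.Agent.S59.H765.exists_level_trace_sub_mem ρ' n
    obtain ⟨L₂, hL₂, hc₂⟩ := Fermat.Agent.S59.H765.exists_level_trace_sub_mem ρ n
    haveI := hL₁
    haveI := hL₂
    have hL : FiniteDimensional ℚ (L₁ ⊔ L₂ : IntermediateField ℚ Qb) :=
      IntermediateField.finiteDimensional_sup L₁ L₂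
    obtain ⟨ℓ, B, τ, hℓ, hℓF, hB, hτ, -, hτσ⟩ :=
      Fermat.Agent.Lib.Cheb.chebotarev (L₁ ⊔ L₂) hL σ F
    have e1 : ρ'.trace τ - ρ'.trace σ ∈ maximalIdeal T' ^ n :=
      hc₁ σ τ fun x hx => hτσ x ((le_sup_left : L₁ ≤ L₁ ⊔ L₂) hx)
    have e2 : ρ.trace τ - ρ.trace σ ∈ maximalIdeal T ^ n :=
      hc₂ σ τ fun x hx => hτσ x ((le_sup_right : L₂ ≤ L₁ ⊔ L₂) hx)
    have e3 : φ (ρ'.trace τ - ρ'.trace σ) ∈ maximalIdeal T ^ n := by
      have hmap : (maximalIdeal T' ^ n).map φ ≤ maximalIdeal T ^ n := by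
        rw [Ideal.map_pow]
        exact Ideal.pow_right_mono (((local_hom_TFAE φ).out 0 2 rfl rfl).mp hφ) n
      exact hmap (Ideal.mem_map_of_mem φ e1)
    have hsplit : φ (ρ'.trace σ) - ρ.trace σ =
        (ρ.trace τ - ρ.trace σ) - φ (ρ'.trace τ - ρ'.trace σ) := by
      rw [map_sub, h ℓ hℓ hℓF B hB τ hτ]; ring
    rw [hsplit]
    exact Ideal.sub_mem _ e2 e3
  rw [Ideal.iInf_pow_eq_bot_of_isLocalRing _ (Ideal.IsMaximal.ne_top inferInstance)] at hmem
  exact sub_eq_zero.mp (by simpa using hmem)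

end Trace

/-- **Leaf RESG** of the Taylor–Wiles layer-2 interface. -/
theorem resGal : ResGalStatement := by
  intro p hpF hp2 𝒪 _ _ _ _ _ _ hp𝒪 ρbar habs t Smin Sig Sig' hSig _ _ P P' res hres
  have hp : p.Prime := Fact.out
  have hloc : IsLocalHom (res : P'.T →+* P.T) := isLocalHom_of_finite res
  refine ⟨hloc, ?_⟩
  -- the traces correspond
  have htr : ∀ σ : GQ, (res : P'.T →+* P.T) (P'.H.ρ.trace σ) = P.H.ρ.trace σ := by
    refine map_trace_eq_of_frob _ hloc _ _
      ((Sig' ∪ (wilesLevel p t Smin Sig').primeFactors) ∪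
        (Sig ∪ (wilesLevel p t Smin Sig).primeFactors)) ?_
    intro ℓ hℓ hℓF B hB τ hτ
    have hℓS' : ℓ ∉ (↑Sig' : Set ℕ) := fun h =>
      hℓF (Finset.mem_union_left _ (Finset.mem_union_left _ (Finset.mem_coe.mp h)))
    have hℓN' : ¬ ℓ ∣ wilesLevel p t Smin Sig' := fun h =>
      hℓF (Finset.mem_union_left _ (Finset.mem_union_right _
        (Nat.mem_primeFactors.mpr ⟨hℓ, h, NeZero.ne _⟩)))
    have hℓS : ℓ ∉ (↑Sig : Set ℕ) := fun h =>
      hℓF (Finset.mem_union_right _ (Finset.mem_union_left _ (Finset.mem_coe.mp h)))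
    have hℓN : ¬ ℓ ∣ wilesLevel p t Smin Sig := fun h =>
      hℓF (Finset.mem_union_right _ (Finset.mem_union_right _
        (Nat.mem_primeFactors.mpr ⟨hℓ, h, NeZero.ne _⟩)))
    have h1 : P'.H.ρ.trace τ = P'.H.π (CuspForm.heckeAlgebra.T hℓ hℓN' hℓS') :=
      Fermat.Agent.S59.H765.trace_eq_of_charpoly P'.H.ρ.finrank_eq _ _ _
        (P'.H.charpoly_frob ℓ hℓ hℓN' hℓS' B hB τ hτ)
    have h2 : P.H.ρ.trace τ = P.H.π (CuspForm.heckeAlgebra.T hℓ hℓN hℓS) :=
      Fermat.Agent.S59.H765.trace_eq_of_charpoly P.H.ρ.finrank_eq _ _ _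
        (P.H.charpoly_frob ℓ hℓ hℓN hℓS B hB τ hτ)
    rw [h1, h2]
    exact hres ℓ hℓ hℓN' hℓS' hℓN hℓS
  -- oddness
  have hpT : (p : P.T) ∈ maximalIdeal P.T := by
    have h := ((local_hom_TFAE (algebraMap 𝒪 P.T)).out 0 2 rfl rfl).mp inferInstance
      (Ideal.mem_map_of_mem (algebraMap 𝒪 P.T) hp𝒪)
    rwa [map_natCast] at h
  have h2 : IsUnit (2 : P.T) := Fermat.Agent.S59.G4.H307.isUnit_two_of_odd_mem hp hp2 hpT
  have hdet : P.H.ρ.DetIsCyclotomic p := by
    refine Fermat.Agent.S59.H540.detIsCyclotomic_of_frob P.H.ρ p hpT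
      (Sig ∪ (wilesLevel p t Smin Sig).primeFactors) ?_
    intro ℓ hℓ hℓF B hB τ hτ
    have hℓS : ℓ ∉ (↑Sig : Set ℕ) := fun h =>
      hℓF (Finset.mem_union_left _ (Finset.mem_coe.mp h))
    have hℓN : ¬ ℓ ∣ wilesLevel p t Smin Sig := fun h =>
      hℓF (Finset.mem_union_right _ (Nat.mem_primeFactors.mpr ⟨hℓ, h, NeZero.ne _⟩))
    exact Fermat.Agent.S59.H540.det_eq_of_charpoly P.H.ρ.finrank_eq _ _ _
      (P.H.charpoly_frob ℓ hℓ hℓN hℓS B hB τ hτ)
  have hc : P.H.ρ.trace complexConjugation = 0 :=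
    Fermat.Agent.S59.G4.H307.trace_eq_zero_of_det_eq_neg_one P.H.ρ complexConjugation
      complexConjugation_mul_self
      (Fermat.Agent.S59.G4.H178.det_involution_eq_neg_one P.H.ρ p hp2 hdet complexConjugation
        complexConjugation_mul_self Fermat.Agent.S59.G4.H307.complexConjugation_ne_one)
  have hirr : P.H.ρ.residual.IsIrreducible :=
    Fermat.Agent.S59.G4.H307.isIrreducible_of_absIrr _ P.H.residual_absIrr
  have hE : P.H.ρ.IsEquiv (P'.H.ρ.baseChangeAlong (res : P'.T →+* P.T) hloc) :=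
    Fermat.Agent.S59.H307.isEquiv_of_trace_eq h2 _ _
      (fun σ => by rw [trace_baseChangeAlong, htr]) complexConjugation
      complexConjugation_mul_self hc hirr
  obtain ⟨e⟩ := hE
  exact ⟨e.symm⟩

end Fermat.Agent.S59.TW.H788
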