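import Fermat.Agent.S59.TW.H788.GalRLocal
import Fermat.Agent.S59.TW.H314.CmpSpec
import Fermat.Agent.S58.H93.Cheb
import Fermat.Agent.S58.H273.ResGeneric
import Fermat.Agent.S59.G4.H178.Odd
import Fermat.Agent.S59.H540.DetCyc
import Fermat.Agent.S59.Arch.WilesLevel

/-!
# Row S59 / row HARD, cell TW, layer 4, leaf GAL-R  (helper788)

`galR788 : S58.S36Statement → H314.GalRStatement` (`TW/H314/CmpSpec.lean`, VERBATIM):
at a newform point `emb : T_Q → O'` of level `M` with `q_j² ∥ M` the inertia value `w` at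
`(φ, σ)`, `σ ↦` a primitive root modulo `q_j`, is not mapped to `1`.

Proof.  The frozen S36 (hypothesis) gives a representation `ρ''` over a finite extension `O''` of
`O'` attached to the newform, NOT unipotent on inertia at `q_j`; its hypothesis `hres` holds
because the Frobenius characteristic polynomials reduce to those of `ρ̄` (`S58.H273`
`residual_absIrr_of_frob`; oddness `S59.G4.H178` + `S59.H540`).  `ρ''` and
`ρ_Q ⊗_{T_Q} O''` have the same Frobenius characteristic polynomials outside `Σ_Q`, hence the same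
characteristic polynomials everywhere (`S58.H93.chebCharpoly`).  If `emb w = 1` then
`ρ_Q ⊗ O''` is unipotent on inertia at `q_j` (`isUnipotentOnInertiaAt_baseChangeAlong788`),
hence so is `ρ''`: contradiction.
-/

set_option autoImplicit false
set_option linter.unusedSectionVars false
set_option linter.unusedVariables false
set_option linter.style.haveILetI false
set_option maxHeartbeats 1000000
set_option synthInstance.maxHeartbeats 400000

open Polynomial IsLocalRing

namespace Fermat.Agent.S59.TW.H788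

open Fermat.Agent.S59.Arch Fermat.Agent.S59.TW Fermat.Agent.S59.TW.H959
  Fermat.Agent.S59.TW.H314 Fermat.Agent.S59.TW.Aut

/-- The characteristic polynomials of the reduction. -/
theorem charpoly_residual788 {A : Type} [CommRing A] [IsLocalRing A] (ρ : GaloisRepAdic A)
    (σ : AlgebraicClosure ℚ ≃ₐ[ℚ] AlgebraicClosure ℚ) :
    LinearMap.charpoly (ρ.residual.ρ σ) = (LinearMap.charpoly (ρ.ρ σ)).map (residue A) := by
  have h1 : LinearMap.charpoly (ρ.residual.ρ σ) =
      LinearMap.charpoly ((ρ.ρ σ).baseChange (ResidueField A)) := rfl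
  rw [h1, LinearMap.charpoly_baseChange]
  rfl

/-- Equivalent residual representations have the same characteristic polynomials. -/
theorem charpoly_eq_of_isEquiv788 {k : Type} [Field k] {ρ₁ ρ₂ : ResidualGaloisRep k}
    (h : ρ₁.IsEquiv ρ₂) (σ : AlgebraicClosure ℚ ≃ₐ[ℚ] AlgebraicClosure ℚ) :
    LinearMap.charpoly (ρ₂.ρ σ) = LinearMap.charpoly (ρ₁.ρ σ) := by
  obtain ⟨e⟩ := h
  have h1 : ρ₂.ρ σ = e.toLinearEquiv.conj (ρ₁.ρ σ) := by
    apply LinearMap.ext
    intro x
    rw [LinearEquiv.conj_apply, LinearMap.comp_apply, LinearMap.comp_apply]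
    show ρ₂.ρ σ x = e.toLinearEquiv (ρ₁.ρ σ (e.toLinearEquiv.symm x))
    rw [e.map_apply, LinearEquiv.apply_symm_apply]
  rw [h1, LinearEquiv.charpoly_conj]

/-- The characteristic polynomials of a base change of a residual representation. -/
theorem charpoly_res_baseChangeAlong788 {k k' : Type} [Field k] [Field k'] (κ : k →+* k')
    (ρ : ResidualGaloisRep k) (σ : AlgebraicClosure ℚ ≃ₐ[ℚ] AlgebraicClosure ℚ) :
    LinearMap.charpoly ((ρ.baseChangeAlong κ).ρ σ) = (LinearMap.charpoly (ρ.ρ σ)).map κ := by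
  letI : Algebra k k' := κ.toAlgebra
  have h1 : LinearMap.charpoly ((ρ.baseChangeAlong κ).ρ σ) =
      LinearMap.charpoly ((ρ.ρ σ).baseChange k') := rfl
  rw [h1, LinearMap.charpoly_baseChange]
  rfl

section Pkg

variable {p : ℕ}
  {𝒪 : Type} [CommRing 𝒪] [IsDomain 𝒪] [IsDiscreteValuationRing 𝒪]
  [IsAdicComplete (maximalIdeal 𝒪) 𝒪]
  {ρbar : ResidualGaloisRep (ResidueField 𝒪)} {t : PType} {Smin Sig : Finset ℕ}
  [NeZero (wilesLevel p t Smin Sig)]

/-- In a Hecke package the characteristic polynomials of `ρ̄` are the reductions of those of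
`ρ_T`. -/
theorem charpoly_rhobar_map788 (P : HeckePkg p 𝒪 ρbar t Smin Sig)
    (σ : AlgebraicClosure ℚ ≃ₐ[ℚ] AlgebraicClosure ℚ) :
    (LinearMap.charpoly (ρbar.ρ σ)).map (ResidueField.map (algebraMap 𝒪 P.T)) =
      (LinearMap.charpoly (P.H.ρ.ρ σ)).map (residue P.T) := by
  rw [← charpoly_residual788, ← charpoly_res_baseChangeAlong788]
  exact charpoly_eq_of_isEquiv788 P.hres σ

end Pkg

/-- `p` lies in the maximal ideal of the target of a local homomorphism. -/
theorem natCast_mem_of_isLocalHom788 {A B : Type} [CommRing A] [IsLocalRing A] [CommRing B]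
    [IsLocalRing B] (f : A →+* B) (hf : IsLocalHom f) (p : ℕ)
    (hp : (p : A) ∈ maximalIdeal A) : (p : B) ∈ maximalIdeal B := by
  rw [mem_maximalIdeal, mem_nonunits_iff] at hp ⊢
  intro hu
  apply hp
  have h : IsUnit (f (p : A)) := by rwa [map_natCast]
  exact hf.map_nonunit _ h

/-- `residue ∘ f = ResidueField.map f ∘ residue`, on polynomials. -/
theorem map_residue_map788 {A B : Type} [CommRing A] [IsLocalRing A] [CommRing B]
    [IsLocalRing B] (f : A →+* B) [IsLocalHom f] (P : A[X]) :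
    (P.map f).map (residue B) = (P.map (residue A)).map (ResidueField.map f) := by
  rw [Polynomial.map_map, Polynomial.map_map]
  rfl

/-- **GAL-R** (`H314.GalRStatement`, verbatim), from the frozen S36. -/
theorem galR788 (h36 : Fermat.Agent.S58.S36Statement) :
    Fermat.Agent.S59.TW.H314.GalRStatement := by
  intro p _ 𝒪 _ _ _ _ _ _ ρbar Smin h t _ n r qv hq _ PQ j P hP φ hφ σ hσ u hu hcyc a₀ w hw
    O' _ _ _ _ _ _ emb hemb hnew hone
  classical
  have hp : p.Prime := Fact.out
  obtain ⟨M, hM0, g, hg, hfact, hMS, chig, iota, hchig, hcompat⟩ := hnew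
  haveI := hM0
  obtain ⟨-, hqv, -⟩ := hq
  obtain ⟨hqprime, hqS, hqdvd⟩ := hqv j
  -- the package
  have hdet : PQ.H.ρ.DetIsCyclotomic p := by
    have h1 := PQ.hcond.1
    cases t <;> exact h1.1
  have hpT : (p : PQ.T) ∈ maximalIdeal PQ.T := hdet.1
  have hqp : qv j ≠ p := fun e => hqS (e ▸ h.hpSmin)
  have hpq : p ∣ qv j - 1 := dvd_trans (dvd_pow_self p (Nat.succ_ne_zero n)) hqdvd
  have hunr : PQ.H.ρ.residual.IsUnramifiedAt (qv j) := by
    have h1 : ρbar.IsUnramifiedAt (qv j) := by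
      by_contra hcon
      exact hqS ((h.hmin (qv j) hqprime hqp).mpr hcon)
    obtain ⟨e⟩ := PQ.hres
    intro B hB τ hτ
    have h2 : (ρbar.baseChangeAlong (ResidueField.map (algebraMap 𝒪 PQ.T))).ρ τ = 1 := by
      letI : Algebra (ResidueField 𝒪) (ResidueField PQ.T) :=
        (ResidueField.map (algebraMap 𝒪 PQ.T)).toAlgebra
      show (ρbar.ρ τ).baseChange (ResidueField PQ.T) = 1
      rw [h1 B hB τ hτ]
      exact LinearMap.baseChange_one _ _
    refine LinearMap.ext fun x => ?_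
    apply e.toLinearEquiv.injective
    rw [e.map_apply, h2]
    rfl
  -- the set `Σ_Q`
  have hpSig : p ∈ Smin ∪ Finset.univ.image qv := Finset.mem_union_left _ h.hpSmin
  have hSigP : ∀ q ∈ Smin ∪ Finset.univ.image qv, q.Prime := by
    intro q hq
    rcases Finset.mem_union.mp hq with h1 | h1
    · exact h.hSmin q h1
    · obtain ⟨i, -, rfl⟩ := Finset.mem_image.mp h1
      exact (hqv i).1
  have hgood : ∀ ℓ : ℕ, ℓ.Prime → ℓ ∉ Smin ∪ Finset.univ.image qv →
      ¬ ℓ ∣ wilesLevel p t Smin (Smin ∪ Finset.univ.image qv) ∧ ¬ ℓ ∣ M ∧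
        ℓ ∉ (↑(Smin ∪ Finset.univ.image qv) : Set ℕ) ∧ ℓ ≠ p := by
    intro ℓ hℓ hℓS
    refine ⟨fun hd => hℓS ?_, fun hd => hℓS (hMS ℓ hℓ hd),
      fun hd => hℓS (Finset.mem_coe.mp hd), fun e => hℓS (e ▸ hpSig)⟩
    exact mem_of_prime_dvd_wilesLevel hp h.hSmin hSigP h.hpSmin Finset.subset_union_left ℓ hℓ hd
  have hpO' : (p : O') ∈ maximalIdeal O' := natCast_mem_of_isLocalHom788 emb hemb p hpT
  -- the frozen S36
  obtain ⟨O'', j1, j2, j3, j4, j5, j6, j7, j8, j9, hinj, ρ'', hρ'', hnu⟩ :=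
    h36 hg p (Smin ∪ Finset.univ.image qv) O' hpO' h.hp2 chig hchig iota hpSig hMS (by
      intro O₃ _ _ _ _ _ _ _ _ _ _ ρ hρ
      have hloc₃ : IsLocalHom ((algebraMap O' O₃).comp emb) :=
        haveI := hemb
        RingHom.isLocalHom_comp _ _
      haveI := hloc₃
      have hpO₃ : (p : O₃) ∈ maximalIdeal O₃ :=
        natCast_mem_of_isLocalHom788 _ hloc₃ p hpT
      have hfrob : ∀ ℓ : ℕ, ℓ.Prime → ℓ ∉ Smin ∪ Finset.univ.image qv →
          ∀ B : ValuationSubring (AlgebraicClosure ℚ), B.LiesOverPrime ℓ →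
            ∀ τ : AlgebraicClosure ℚ ≃ₐ[ℚ] AlgebraicClosure ℚ, B.IsFrobeniusAt τ ℓ →
              LinearMap.charpoly (ρ.ρ τ) =
                (LinearMap.charpoly (PQ.H.ρ.ρ τ)).map ((algebraMap O' O₃).comp emb) := by
        intro ℓ hℓ hℓS B hB τ hτ
        obtain ⟨hℓN, hℓM, hℓS', hℓp⟩ := hgood ℓ hℓ hℓS
        rw [hρ ℓ hℓ hℓp hℓM hℓS' B hB τ hτ, PQ.H.charpoly_frob ℓ hℓ hℓN hℓS' B hB τ hτ,
          RingHom.comp_apply, hcompat ℓ hℓ hℓN hℓM hℓS']
        simp only [Polynomial.map_add, Polynomial.map_sub, Polynomial.map_mul,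
          Polynomial.map_pow, Polynomial.map_X, Polynomial.map_C, map_natCast,
          Polynomial.map_natCast, RingHom.comp_apply]
      refine ⟨?_, ?_⟩
      · refine Fermat.Agent.S58.H273.residual_absIrr_of_frob ρbar h.habs
          ((ResidueField.map ((algebraMap O' O₃).comp emb)).comp
            (ResidueField.map (algebraMap 𝒪 PQ.T))) ρ (Smin ∪ Finset.univ.image qv) ?_
        intro ℓ hℓ hℓS B hB τ hτ
        rw [hfrob ℓ hℓ hℓS B hB τ hτ, map_residue_map788, ← charpoly_rhobar_map788,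
          Polynomial.map_map]
      · intro c hc hc1
        have hcyc₃ : ρ.DetIsCyclotomic p :=
          Fermat.Agent.S59.H540.detIsCyclotomic_of_frob ρ p hpO₃
            (Smin ∪ Finset.univ.image qv) (by
              intro ℓ hℓ hℓS B hB τ hτ
              obtain ⟨hℓN, hℓM, hℓS', hℓp⟩ := hgood ℓ hℓ hℓS
              exact Fermat.Agent.S59.H540.det_eq_of_charpoly ρ.finrank_eq _ _ _
                (hρ ℓ hℓ hℓp hℓM hℓS' B hB τ hτ))
        have h1 : LinearMap.det (ρ.ρ c) = -1 :=
          Fermat.Agent.S59.G4.H178.det_involution_eq_neg_one ρ p h.hp2 hcyc₃ c hc hc1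
        have h2 : LinearMap.det (ρ.residual.ρ c)
            = algebraMap O₃ (ResidueField O₃) (LinearMap.det (ρ.ρ c)) :=
          LinearMap.det_baseChange (ρ.ρ c)
        rw [h2, h1, map_neg, map_one])
  -- the comparison
  have hloc : IsLocalHom ((algebraMap O' O'').comp emb) :=
    haveI := hemb
    RingHom.isLocalHom_comp _ _
  have hψw : ((algebraMap O' O'').comp emb) w = 1 := by
    rw [RingHom.comp_apply, hone, map_one]
  have hunip := isUnipotentOnInertiaAt_baseChangeAlong788 p PQ.T hpT PQ.H.ρ hdet (qv j) hqprime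
    hpq hunr P hP φ hφ σ hσ u hu hcyc a₀ w hw ((algebraMap O' O'').comp emb) hloc hψw
  have hcheb := Fermat.Agent.S58.H93.chebCharpoly O'' ρ''
    (PQ.H.ρ.baseChangeAlong ((algebraMap O' O'').comp emb) hloc)
    (Smin ∪ Finset.univ.image qv) (by
      intro ℓ hℓ hℓS B hB τ hτ
      obtain ⟨hℓN, hℓM, hℓS', hℓp⟩ := hgood ℓ hℓ hℓS
      rw [hρ'' ℓ hℓ hℓM hℓS' B hB τ hτ, charpoly_baseChangeAlong788,
        PQ.H.charpoly_frob ℓ hℓ hℓN hℓS' B hB τ hτ, RingHom.comp_apply,
        hcompat ℓ hℓ hℓN hℓM hℓS']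
      simp only [Polynomial.map_add, Polynomial.map_sub, Polynomial.map_mul,
        Polynomial.map_pow, Polynomial.map_X, Polynomial.map_C, map_natCast,
        Polynomial.map_natCast, RingHom.comp_apply])
  refine hnu (qv j) hqprime hqp hfact ?_
  intro P' hP' τ hτ
  rw [hcheb τ]
  exact hunip P' hP' τ hτ

end Fermat.Agent.S59.TW.H788
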