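import Fermat.Agent.S59.TW.H123.InertiaOrder
import Fermat.Agent.S59.H59.TWGalCyc
import Fermat.Agent.Lib.Cheb.H476.FrobConj

/-!
# Row S59 / row HARD, cell TW, layer 4, leaf GAL-R: the local step  (helper788)

At a Taylor–Wiles prime `q` (`p ∣ q - 1`, `ρ̄` unramified at `q`, Frobenius with distinct
eigenvalues) let `w` be an inertia value of `ρ` at `(φ, σ)`, where `σ` is an element of the
inertia group at `P | q` acting on the `q`-th roots of unity through a primitive root modulo `q`.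

* `exists_pow_cyclo788` : every `τ ∈ Gal(ℚ̄/ℚ)` acts on `μ_q` as a power of `σ`.
* `charpoly_map_inertia788` : if `ψ : A → B` is a ring homomorphism with `ψ w = 1`, then the image
  under `ψ` of the characteristic polynomial of `ρ(τ)` is `(X - 1)²` for EVERY `τ` in the inertia
  group at `P`.  (`H59.twGal1`: `ρ|_{D_P} = ξ₀ ⊕ ξ₁`, `w = ξ₀(σ)`, `ξ₀ ξ₁ = 1` on inertia;
  `H59.twGalCyc`: `ξ_i(τ) = ξ_i(σ)^k` if `τ = σ^k` on `μ_q`.)
* `isUnipotentOnInertiaAt_baseChangeAlong788` : hence `ρ ⊗_ψ B` is unipotent on inertia at `q`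
  (all valuation subrings over `q` are conjugate, `Lib.Cheb.H476.exists_conj_of_mem_inertia`).
-/

set_option autoImplicit false
set_option linter.unusedSectionVars false
set_option linter.unusedVariables false
set_option linter.style.haveILetI false

open Polynomial IsLocalRing

namespace Fermat.Agent.S59.TW.H788

open Fermat.Agent.S59.Arch Fermat.Agent.S59.TW Fermat.Agent.S59.TW.H959

/-! ## The action on the `q`-th roots of unity -/

/-- Powers of `σ` act on `μ_q` through the powers of the exponent. -/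
theorem cycloAt_pow788 {q : ℕ} {σ : AlgebraicClosure ℚ ≃ₐ[ℚ] AlgebraicClosure ℚ} {a : ℕ}
    (h : CycloAt q σ a) (k : ℕ) : CycloAt q (σ ^ k) (a ^ k) := by
  induction k with
  | zero =>
    intro μ hμ
    rw [pow_zero, pow_zero, pow_one]
    rfl
  | succ k ih =>
    intro μ hμ
    rw [pow_succ, AlgEquiv.mul_apply, h μ hμ, map_pow, ih μ hμ, ← pow_mul, pow_succ]

/-- If `σ` acts on `μ_q` through a primitive root modulo `q`, every `τ` acts on `μ_q` as a power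
of `σ`. -/
theorem exists_pow_cyclo788 {q : ℕ} (hq : q.Prime)
    {σ : AlgebraicClosure ℚ ≃ₐ[ℚ] AlgebraicClosure ℚ} (u : (ZMod q)ˣ)
    (hu : orderOf u = q - 1) (hcyc : CycloAt q σ (u : ZMod q).val)
    (τ : AlgebraicClosure ℚ ≃ₐ[ℚ] AlgebraicClosure ℚ) :
    ∃ k : ℕ, ∀ ζ : AlgebraicClosure ℚ, ζ ^ q = 1 → τ ζ = (σ ^ k) ζ := by
  haveI : Fact q.Prime := ⟨hq⟩
  haveI : NeZero q := ⟨hq.ne_zero⟩
  obtain ⟨ζ₀, hζ₀⟩ := HasEnoughRootsOfUnity.exists_primitiveRoot (AlgebraicClosure ℚ) q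
  have h1 : (τ ζ₀) ^ q = 1 := by rw [← map_pow, hζ₀.pow_eq_one, map_one]
  obtain ⟨i, hi, hiζ⟩ := hζ₀.eq_pow_of_pow_eq_one h1
  have hi0 : (i : ZMod q) ≠ 0 := by
    intro h0
    have hdvd : q ∣ i := (ZMod.natCast_eq_zero_iff i q).mp h0
    have hi' : i = 0 := Nat.eq_zero_of_dvd_of_lt hdvd hi
    subst hi'
    rw [pow_zero] at hiζ
    have h2 : ζ₀ = 1 := by
      apply τ.injective
      rw [← hiζ, map_one]
    exact hζ₀.ne_one hq.one_lt h2
  have hcard : Nat.card (ZMod q)ˣ = q - 1 := by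
    rw [Nat.card_eq_fintype_card, ZMod.card_units_eq_totient, Nat.totient_prime hq]
  have htop : Subgroup.zpowers u = ⊤ := by
    apply Subgroup.eq_top_of_card_eq
    rw [Nat.card_zpowers, hu, hcard]
  have hgen : Units.mk0 (i : ZMod q) hi0 ∈ Subgroup.zpowers u := by
    rw [htop]
    exact Subgroup.mem_top _
  obtain ⟨k, hk⟩ := (Submonoid.mem_powers_iff _ _).mp (mem_powers_iff_mem_zpowers.mpr hgen)
  have hmod : (u : ZMod q).val ^ k ≡ i [MOD q] := by
    rw [← ZMod.natCast_eq_natCast_iff, Nat.cast_pow, ZMod.natCast_zmod_val]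
    have h3 := congrArg (fun x : (ZMod q)ˣ => (x : ZMod q)) hk
    simpa using h3
  refine ⟨k, fun ζ hζ => ?_⟩
  obtain ⟨m, -, rfl⟩ := hζ₀.eq_pow_of_pow_eq_one hζ
  rw [cycloAt_pow788 hcyc k _ hζ, map_pow, ← hiζ, ← pow_mul, ← pow_mul,
    pow_eq_pow_mod (m * (u : ZMod q).val ^ k) hζ₀.pow_eq_one,
    pow_eq_pow_mod (i * m) hζ₀.pow_eq_one]
  congr 1
  have : m * (u : ZMod q).val ^ k ≡ i * m [MOD q] := by
    rw [mul_comm i m]
    exact Nat.ModEq.mul_left m hmod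
  exact this.symm

/-! ## The local step -/

/-- **GAL-R, local step.**  If the inertia value `w` at `(φ, σ)` is mapped to `1` by `ψ`, and
`σ` acts on `μ_q` through a primitive root, then the image under `ψ` of the characteristic
polynomial of `ρ(τ)` is `(X - 1)²` for every `τ` in the inertia group at `P`. -/
theorem charpoly_map_inertia788 (p : ℕ) [Fact p.Prime] (A : Type) [CommRing A] [IsLocalRing A]
    [IsNoetherianRing A] [IsAdicComplete (maximalIdeal A) A]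
    (hpA : (p : A) ∈ maximalIdeal A)
    (ρ : GaloisRepAdic A) (hdet : ρ.DetIsCyclotomic p)
    (q : ℕ) (hq : q.Prime) (hpq : p ∣ q - 1)
    (hunr : ρ.residual.IsUnramifiedAt q)
    (P : ValuationSubring (AlgebraicClosure ℚ)) (hP : P.LiesOverPrime q)
    (φ : AlgebraicClosure ℚ ≃ₐ[ℚ] AlgebraicClosure ℚ) (hφ : P.IsFrobeniusAt φ q)
    (σ : AlgebraicClosure ℚ ≃ₐ[ℚ] AlgebraicClosure ℚ) (hσ : σ ∈ P.inertiaSubgroupIn ℚ)
    (u : (ZMod q)ˣ) (hu : orderOf u = q - 1) (hcyc : CycloAt q σ (u : ZMod q).val)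
    (a₀ w : A) (hw : IsInertiaValue ρ φ σ a₀ w)
    {B : Type} [CommRing B] (ψ : A →+* B) (hψ : ψ w = 1)
    (τ : AlgebraicClosure ℚ ≃ₐ[ℚ] AlgebraicClosure ℚ) (hτ : τ ∈ P.inertiaSubgroupIn ℚ) :
    (LinearMap.charpoly (ρ.ρ τ)).map ψ = (X - 1) ^ 2 := by
  obtain ⟨a, b, ha₀, hab, hchar, hwab⟩ := hw
  -- the residual characteristic polynomial
  have hcharres : LinearMap.charpoly (ρ.residual.ρ φ) =
      (X - C (residue A a)) * (X - C (residue A b)) := by
    have h1 : LinearMap.charpoly (ρ.residual.ρ φ) =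
        LinearMap.charpoly ((ρ.ρ φ).baseChange (ResidueField A)) := rfl
    rw [h1, LinearMap.charpoly_baseChange, hchar, Polynomial.map_mul, Polynomial.map_sub,
      Polynomial.map_sub, Polynomial.map_X, Polynomial.map_C, Polynomial.map_C]
    rfl
  have hαβ : residue A a ≠ residue A b := by
    intro h
    have h0 : residue A (a - b) = 0 := by rw [map_sub, h, sub_self]
    exact (residue_eq_zero_iff _).mp h0 hab
  obtain ⟨bs, ξ, hD⟩ := Fermat.Agent.S59.H59.twGal1 p q hq hpq A hpA ρ hdet hunr P hP φ hφ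
    _ _ hαβ hcharres
  have hφD : φ ∈ P.decompositionSubgroup ℚ := hφ.mem_decompositionSubgroup
  have hσD : σ ∈ P.decompositionSubgroup ℚ :=
    Fermat.Agent.S59.TW.H123.mem_decomposition_of_mem_inertia123 hσ
  have hφb : ∀ i, ρ.ρ φ (bs i) = ξ i φ • bs i := hD.diag φ hφD
  have hσb : ∀ i, ρ.ρ σ (bs i) = ξ i σ • bs i := hD.diag σ hσD
  have hφσb : ∀ i, ρ.ρ (φ * σ) (bs i) = (ξ i φ * ξ i σ) • bs i := by
    intro i
    rw [map_mul, Module.End.mul_apply, hσb, map_smul, hφb, smul_smul, mul_comm]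
  have hcφ := Fermat.Agent.S59.TW.H123.charpoly_of_diag123 bs (ρ.ρ φ) (fun i => ξ i φ) hφb
  have hfac : (X - C (ξ 0 φ)) * (X - C (ξ 1 φ)) = (X - C a) * (X - C b) := by
    rw [← hchar]
    exact hcφ.symm
  have hx0 : ξ 0 φ - a ∈ maximalIdeal A := by
    rw [← residue_eq_zero_iff, map_sub, (hD.frob φ hφ).1, sub_self]
  obtain ⟨hξ0, hξ1⟩ := Fermat.Agent.S59.TW.H123.roots_eq_of_factor123 hfac hx0 hab
  have htφσ : ρ.trace (φ * σ) = a * ξ 0 σ + b * ξ 1 σ := by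
    have h1 := Fermat.Agent.S59.TW.H123.trace_of_diag123 bs (ρ.ρ (φ * σ))
      (fun i => ξ i φ * ξ i σ) hφσb
    simp only [hξ0, hξ1] at h1
    exact h1
  have htσ : ρ.trace σ = ξ 0 σ + ξ 1 σ :=
    Fermat.Agent.S59.TW.H123.trace_of_diag123 bs (ρ.ρ σ) (fun i => ξ i σ) hσb
  have hw : w = ξ 0 σ := by
    have h1 : (a - b) * w = (a - b) * ξ 0 σ := by
      rw [hwab, htφσ, htσ]
      ring
    exact hab.mul_left_cancel h1
  -- the values at `σ` are killed by `ψ`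
  have hψ0 : ψ (ξ 0 σ) = 1 := by rw [← hw]; exact hψ
  have hψ1 : ψ (ξ 1 σ) = 1 := by
    have h1 := congrArg ψ (hD.inertia_mul σ hσ)
    rw [map_mul, hψ0, one_mul, map_one] at h1
    exact h1
  have hψi : ∀ i, ψ (ξ i σ) = 1 := by
    intro i
    fin_cases i
    · exact hψ0
    · exact hψ1
  -- `τ = σ^k τ'` with `τ'` trivial on `μ_q`
  obtain ⟨k, hk⟩ := exists_pow_cyclo788 hq u hu hcyc τ
  have hσk : σ ^ k ∈ P.inertiaSubgroupIn ℚ := Subgroup.pow_mem _ hσ k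
  have hτ' : (σ ^ k)⁻¹ * τ ∈ P.inertiaSubgroupIn ℚ :=
    Subgroup.mul_mem _ (Subgroup.inv_mem _ hσk) hτ
  have hfix : ∀ ζ : AlgebraicClosure ℚ, ζ ^ q = 1 → ((σ ^ k)⁻¹ * τ) ζ = ζ := by
    intro ζ hζ
    rw [AlgEquiv.mul_apply, hk ζ hζ]
    exact (σ ^ k).symm_apply_apply ζ
  have hone : ∀ i, ξ i ((σ ^ k)⁻¹ * τ) = 1 :=
    Fermat.Agent.S59.H59.twGalCyc p q hq hpq A hpA ρ P hP _ _ hαβ bs ξ hD _ hτ' hfix
  have hτ'b : ∀ i, ρ.ρ ((σ ^ k)⁻¹ * τ) (bs i) = bs i := by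
    intro i
    rw [hD.diag _ (Fermat.Agent.S59.TW.H123.mem_decomposition_of_mem_inertia123 hτ') i,
      hone i, one_smul]
  have hσkb : ∀ (m : ℕ) (i : Fin 2), ρ.ρ (σ ^ m) (bs i) = (ξ i σ ^ m) • bs i := by
    intro m
    induction m with
    | zero =>
      intro i
      rw [pow_zero, pow_zero, map_one, one_smul]
      rfl
    | succ m ih =>
      intro i
      rw [pow_succ, map_mul, Module.End.mul_apply, hσb, map_smul, ih, smul_smul, pow_succ,
        mul_comm]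
  have hτb : ∀ i, ρ.ρ τ (bs i) = (ξ i σ ^ k) • bs i := by
    intro i
    have h1 : τ = σ ^ k * ((σ ^ k)⁻¹ * τ) := by group
    rw [h1, map_mul, Module.End.mul_apply, hτ'b, hσkb]
  have hcτ := Fermat.Agent.S59.TW.H123.charpoly_of_diag123 bs (ρ.ρ τ)
    (fun i => ξ i σ ^ k) hτb
  have hcτ' : LinearMap.charpoly (ρ.ρ τ) = (X - C (ξ 0 σ ^ k)) * (X - C (ξ 1 σ ^ k)) := hcτ
  have e0 : ψ (ξ 0 σ ^ k) = 1 := by rw [map_pow, hψ0, one_pow]
  have e1 : ψ (ξ 1 σ ^ k) = 1 := by rw [map_pow, hψ1, one_pow]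
  rw [hcτ', Polynomial.map_mul, Polynomial.map_sub, Polynomial.map_sub, Polynomial.map_X,
    Polynomial.map_C, Polynomial.map_C, e0, e1, map_one]
  ring

/-! ## All the valuation subrings over `q` -/

/-- The characteristic polynomial is invariant under conjugation. -/
theorem charpoly_conj788 {A : Type} [CommRing A] [IsLocalRing A] (ρ : GaloisRepAdic A)
    (g τ : AlgebraicClosure ℚ ≃ₐ[ℚ] AlgebraicClosure ℚ) :
    LinearMap.charpoly (ρ.ρ (g * τ * g⁻¹)) = LinearMap.charpoly (ρ.ρ τ) := by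
  have h1 : ρ.ρ g * ρ.ρ g⁻¹ = 1 := by rw [← map_mul, mul_inv_cancel, map_one]
  have h2 : ρ.ρ g⁻¹ * ρ.ρ g = 1 := by rw [← map_mul, inv_mul_cancel, map_one]
  let e : ρ.V ≃ₗ[A] ρ.V :=
    { toLinearMap := ρ.ρ g
      invFun := ρ.ρ g⁻¹
      left_inv := fun x => by
        show (ρ.ρ g⁻¹ * ρ.ρ g) x = x
        rw [h2]; rfl
      right_inv := fun x => by
        show (ρ.ρ g * ρ.ρ g⁻¹) x = x
        rw [h1]; rfl }
  have h3 : ρ.ρ (g * τ * g⁻¹) = e.conj (ρ.ρ τ) := by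
    rw [map_mul, map_mul]
    rfl
  rw [h3, LinearEquiv.charpoly_conj]

/-- The characteristic polynomials of a base change. -/
theorem charpoly_baseChangeAlong788 {A B : Type} [CommRing A] [IsLocalRing A] [CommRing B]
    [IsLocalRing B] (ψ : A →+* B) (hψ : IsLocalHom ψ) (ρ : GaloisRepAdic A)
    (τ : AlgebraicClosure ℚ ≃ₐ[ℚ] AlgebraicClosure ℚ) :
    LinearMap.charpoly ((ρ.baseChangeAlong ψ hψ).ρ τ) = (LinearMap.charpoly (ρ.ρ τ)).map ψ := by
  letI : Algebra A B := ψ.toAlgebra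
  have h1 : LinearMap.charpoly ((ρ.baseChangeAlong ψ hψ).ρ τ) =
      LinearMap.charpoly ((ρ.ρ τ).baseChange B) := rfl
  rw [h1, LinearMap.charpoly_baseChange]
  rfl

/-- **GAL-R, local step, global form.**  If the inertia value `w` at `(φ, σ)` is mapped to `1` by
the local homomorphism `ψ`, and `σ` acts on `μ_q` through a primitive root, then `ρ ⊗_ψ B` is
unipotent on inertia at `q`. -/
theorem isUnipotentOnInertiaAt_baseChangeAlong788 (p : ℕ) [Fact p.Prime] (A : Type) [CommRing A]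
    [IsLocalRing A] [IsNoetherianRing A] [IsAdicComplete (maximalIdeal A) A]
    (hpA : (p : A) ∈ maximalIdeal A)
    (ρ : GaloisRepAdic A) (hdet : ρ.DetIsCyclotomic p)
    (q : ℕ) (hq : q.Prime) (hpq : p ∣ q - 1)
    (hunr : ρ.residual.IsUnramifiedAt q)
    (P : ValuationSubring (AlgebraicClosure ℚ)) (hP : P.LiesOverPrime q)
    (φ : AlgebraicClosure ℚ ≃ₐ[ℚ] AlgebraicClosure ℚ) (hφ : P.IsFrobeniusAt φ q)
    (σ : AlgebraicClosure ℚ ≃ₐ[ℚ] AlgebraicClosure ℚ) (hσ : σ ∈ P.inertiaSubgroupIn ℚ)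
    (u : (ZMod q)ˣ) (hu : orderOf u = q - 1) (hcyc : CycloAt q σ (u : ZMod q).val)
    (a₀ w : A) (hw : IsInertiaValue ρ φ σ a₀ w)
    {B : Type} [CommRing B] [IsLocalRing B] (ψ : A →+* B) (hψloc : IsLocalHom ψ)
    (hψ : ψ w = 1) :
    (ρ.baseChangeAlong ψ hψloc).IsUnipotentOnInertiaAt q := by
  intro P' hP' τ' hτ'
  obtain ⟨g, τ, hτ, rfl⟩ :=
    Fermat.Agent.Lib.Cheb.H476.exists_conj_of_mem_inertia hq hP hP' hτ'
  rw [charpoly_conj788, charpoly_baseChangeAlong788]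
  exact charpoly_map_inertia788 p A hpA ρ hdet q hq hpq hunr P hP φ hφ σ hσ u hu hcyc a₀ w hw
    ψ hψ τ hτ

end Fermat.Agent.S59.TW.H788
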