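import Fermat.Agent.S59.TW.H314.CmpGlue

/-!
# Row S59, cell TW, layer 4, leaf CMP: route B for (T)  (helper788)

`H314.cmp_of_leaves` obtains (T) (`H314.TptAt`) from the dictionary DICT-T and GAL-T.  Route B
avoids the dictionary: it is enough to know the POWER form

* `TpowAt PQ V a` : for every inertia value `w` at `q_j` there is `k` with
  `a ((w - 1)^k) V ⊆ (⟨u⟩_j - 1) V`  (ring operations in `T_Q`: `Module.End 𝒪 ↥V` is only found
  as a semiring by instance synthesis)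

(`k = 2` from `Aut.H788.sub_one_sq_mem788`: `T' = heckeLocal (N₀ q_j ∏_{i ≠ j} q_i²)` acts on
`V / (⟨u⟩_j - 1) V`, its representation is unipotent on inertia at `q_j ∥ N'` by the frozen S34).

* `tptAt_of_tpowAt788` : `TpowAt → TptAt` (pure algebra: `z = a ((w - 1)^k) y` is fixed by `⟨u⟩_j`
  and lies in `(⟨u⟩_j - 1) V`, so `(q_j - 1) z = N z = 0`; `V` is torsion-free; `Ann y` is prime).
  No freeness is needed.
* `TpowStatement788` : the closed statement (context of `Aut.CmpStatement`).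
* `cmp_of_tpow_leaves788 : FreeQStatement → TpowStatement788 → DictRStatement → GalRStatement →
  Aut.CmpStatement`.
-/

set_option autoImplicit false
set_option linter.unusedSectionVars false
set_option linter.unusedVariables false
set_option linter.style.haveILetI false
set_option maxHeartbeats 1000000
set_option synthInstance.maxHeartbeats 400000

open Polynomial IsLocalRing CongruenceSubgroup
open scoped MatrixGroups

namespace Fermat.Agent.S59.TW.H788

open Fermat.Agent.S59.Arch Fermat.Agent.S59.TW Fermat.Agent.S59.TW.H959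
  Fermat.Agent.S59.TW.H653 Fermat.Agent.S59.TW.Aut Fermat.Agent.S59.TW.H314

section At

variable {p : ℕ}
  {𝒪 : Type} [CommRing 𝒪] [IsDomain 𝒪] [IsDiscreteValuationRing 𝒪]
  [IsAdicComplete (maximalIdeal 𝒪) 𝒪]
  {ρbar : ResidualGaloisRep (ResidueField 𝒪)} {t : PType} {Smin : Finset ℕ}
  {r : ℕ} {qv : Fin r → ℕ}
  [NeZero (wilesLevel p t Smin (Smin ∪ Finset.univ.image qv))]

/-- **(T) at `V`, power form**: for every inertia value `w` at `q_j` some power of `a (w - 1)`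
maps `V` into `(⟨u⟩_j - 1) V`. -/
def TpowAt (PQ : HeckePkg p 𝒪 ρbar t Smin (Smin ∪ Finset.univ.image qv))
    (V : Submodule 𝒪 (XQ p t Smin qv 𝒪)) (a : PQ.T →ₐ[𝒪] Module.End 𝒪 V) : Prop :=
  ∀ (j : Fin r) (P : ValuationSubring Qb), P.LiesOverPrime (qv j) →
    ∀ φ : GQ, P.IsFrobeniusAt φ (qv j) →
    ∀ σ ∈ P.inertiaSubgroupIn ℚ, ∀ u : (ZMod (qv j))ˣ, orderOf u = qv j - 1 →
      CycloAt (qv j) σ (u : ZMod (qv j)).val →
      ∀ a₀ w : PQ.T, IsInertiaValue PQ.H.ρ φ σ a₀ w →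
        ∃ k : ℕ, ∀ y : V, ∃ y' : V,
          ((a ((w - 1) ^ k) y : V) : XQ p t Smin qv 𝒪) =
            diaQ p t Smin qv 𝒪 (Pi.mulSingle j u) y' - y'

/-- The power form with `k = 2`. -/
theorem tpowAt_of_sq788 (PQ : HeckePkg p 𝒪 ρbar t Smin (Smin ∪ Finset.univ.image qv))
    (V : Submodule 𝒪 (XQ p t Smin qv 𝒪)) (a : PQ.T →ₐ[𝒪] Module.End 𝒪 V)
    (h : ∀ (j : Fin r) (P : ValuationSubring Qb), P.LiesOverPrime (qv j) →
      ∀ φ : GQ, P.IsFrobeniusAt φ (qv j) →
      ∀ σ ∈ P.inertiaSubgroupIn ℚ, ∀ u : (ZMod (qv j))ˣ, orderOf u = qv j - 1 →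
        CycloAt (qv j) σ (u : ZMod (qv j)).val →
        ∀ a₀ w : PQ.T, IsInertiaValue PQ.H.ρ φ σ a₀ w →
          ∀ y : V, ∃ y' : V,
            ((a (w - 1) (a (w - 1) y) : V) : XQ p t Smin qv 𝒪) =
              diaQ p t Smin qv 𝒪 (Pi.mulSingle j u) y' - y') :
    TpowAt PQ V a := by
  intro j P hP φ hφ σ hσ u hu hcyc a₀ w hw
  refine ⟨2, fun y => ?_⟩
  obtain ⟨y', hy'⟩ := h j P hP φ hφ σ hσ u hu hcyc a₀ w hw y
  refine ⟨y', ?_⟩
  rw [pow_two, map_mul, Module.End.mul_apply]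
  exact hy'

/-- `a (w - 1)` elementwise. -/
theorem apply_sub_one788 (PQ : HeckePkg p 𝒪 ρbar t Smin (Smin ∪ Finset.univ.image qv))
    (V : Submodule 𝒪 (XQ p t Smin qv 𝒪)) (a : PQ.T →ₐ[𝒪] Module.End 𝒪 V) (w : PQ.T) (y : V) :
    a (w - 1) y = a w y - y := by
  have h1 : a w = a (w - 1) + 1 := by
    rw [← map_one a, ← map_add, sub_add_cancel]
  rw [h1, LinearMap.add_apply, Module.End.one_apply]
  exact (add_sub_cancel_right (a (w - 1) y) y).symm

/-- The power form with `k = 2`, elementwise (no ring operation on endomorphisms):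
`a w (a w y - y) - (a w y - y) = ⟨u⟩_j y' - y'`. -/
theorem tpowAt_of_sq_elem788 (PQ : HeckePkg p 𝒪 ρbar t Smin (Smin ∪ Finset.univ.image qv))
    (V : Submodule 𝒪 (XQ p t Smin qv 𝒪)) (a : PQ.T →ₐ[𝒪] Module.End 𝒪 V)
    (h : ∀ (j : Fin r) (P : ValuationSubring Qb), P.LiesOverPrime (qv j) →
      ∀ φ : GQ, P.IsFrobeniusAt φ (qv j) →
      ∀ σ ∈ P.inertiaSubgroupIn ℚ, ∀ u : (ZMod (qv j))ˣ, orderOf u = qv j - 1 →
        CycloAt (qv j) σ (u : ZMod (qv j)).val →
        ∀ a₀ w : PQ.T, IsInertiaValue PQ.H.ρ φ σ a₀ w →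
          ∀ y : V, ∃ y' : V,
            ((a w (a w y - y) - (a w y - y) : V) : XQ p t Smin qv 𝒪) =
              diaQ p t Smin qv 𝒪 (Pi.mulSingle j u) y' - y') :
    TpowAt PQ V a := by
  refine tpowAt_of_sq788 PQ V a ?_
  intro j P hP φ hφ σ hσ u hu hcyc a₀ w hw y
  obtain ⟨y', hy'⟩ := h j P hP φ hφ σ hσ u hu hcyc a₀ w hw y
  refine ⟨y', ?_⟩
  rw [apply_sub_one788, apply_sub_one788]
  exact hy'

end At

/-- An element of a prime annihilator: if a power of `s` kills the eigenvector `y`, so does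
`s`. -/
theorem apply_eq_zero_of_pow788 {T : Type} [CommRing T] {𝒪 : Type} [CommRing 𝒪] [Algebra 𝒪 T]
    {V : Type} [AddCommMonoid V] [Module 𝒪 V] (a : T →ₐ[𝒪] Module.End 𝒪 V) (y : V)
    (hy0 : y ≠ 0) (hy : ∀ s s' : T, a (s * s') y = 0 → a s y = 0 ∨ a s' y = 0) (s : T)
    (k : ℕ) (h : a (s ^ k) y = 0) : a s y = 0 := by
  induction k with
  | zero =>
    rw [pow_zero, map_one, Module.End.one_apply] at h
    exact absurd h hy0
  | succ k ih =>
    rw [pow_succ] at h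
    rcases hy _ _ h with h1 | h1
    · exact ih h1
    · exact h1

/-- The norm argument: `z = D y' - y'` fixed by `D`, `D^m y' = y'` ⟹ `m • z = 0`. -/
theorem nsmul_eq_zero_of_fixed788 {V : Type} [AddCommGroup V] (D : V → V)
    (hsub : ∀ x y : V, D (x - y) = D x - D y) (m : ℕ) (y' z : V) (hz : z = D y' - y')
    (hDz : D z = z) (hm : D^[m] y' = y') : m • z = 0 := by
  have h1 : ∀ i : ℕ, z = D^[i + 1] y' - D^[i] y' := by
    intro i
    induction i with
    | zero => simpa using hz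
    | succ i ih =>
      have h2 : D z = D (D^[i + 1] y') - D (D^[i] y') := by
        conv_lhs => rw [ih]
        exact hsub _ _
      rw [hDz] at h2
      rw [h2, ← Function.iterate_succ_apply' D (i + 1), ← Function.iterate_succ_apply' D i]
  have h3 : ∑ i ∈ Finset.range m, (D^[i + 1] y' - D^[i] y') = D^[m] y' - D^[0] y' :=
    Finset.sum_range_sub (fun i => D^[i] y') m
  have h4 : ∑ i ∈ Finset.range m, (D^[i + 1] y' - D^[i] y') = m • z := by
    rw [Finset.sum_congr rfl (fun i _ => (h1 i).symm), Finset.sum_const, Finset.card_range]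
  rw [← h4, h3, hm, Function.iterate_zero, id, sub_self]

/-- **(T) from the power form.** -/
theorem tptAt_of_tpowAt788 (p : ℕ) [hpF : Fact p.Prime]
    (𝒪 : Type) [CommRing 𝒪] [IsDomain 𝒪] [IsDiscreteValuationRing 𝒪]
    [IsAdicComplete (maximalIdeal 𝒪) 𝒪] [Finite (ResidueField 𝒪)] [CharZero 𝒪]
    (ρbar : ResidualGaloisRep (ResidueField 𝒪)) (Smin : Finset ℕ)
    (h : ResidualHyp p 𝒪 ρbar Smin) (t : PType)
    [NeZero (wilesLevel p t Smin Smin)]
    (n r : ℕ) (qv : Fin r → ℕ) (hq : IsTWSet p ρbar Smin n qv)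
    [NeZero (wilesLevel p t Smin (Smin ∪ Finset.univ.image qv))]
    (PQ : HeckePkg p 𝒪 ρbar t Smin (Smin ∪ Finset.univ.image qv))
    (α : Fin r → 𝒪)
    (V : Submodule 𝒪 (XQ p t Smin qv 𝒪)) (hh : ℕ) (a : PQ.T →ₐ[𝒪] Module.End 𝒪 V)
    (hV : IsQPart PQ α V) (ha : IsQAction PQ V hh a) (hT : TpowAt PQ V a) :
    TptAt PQ V a := by
  classical
  intro j P hP φ hφ σ hσ u hu hcyc a₀ w hw y hy hfix
  have hprime : ∀ j, (qv j).Prime := fun j => (hq.2.1 j).1
  have hinj : Function.Injective qv := hq.1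
  have hM : NeZero (bLevel (wilesLevel p t Smin Smin) qv) :=
    ⟨Nat.mul_ne_zero (NeZero.ne _) (Finset.prod_ne_zero_iff.mpr fun j _ => (hprime j).ne_zero)⟩
  have hred := red_surjective (wilesLevel p t Smin Smin) qv (NeZero.ne _) hinj hprime
  have hcomm : ∀ (s : PQ.T) (v : V),
      diaV hV (Pi.mulSingle j u) (a s v) = a s (diaV hV (Pi.mulSingle j u) v) :=
    fun s v => diaV_comm PQ α V hh a h.hSmin h.hpSmin hprime hV ha _ s v
  obtain ⟨k, hk⟩ := hT j P hP φ hφ σ hσ u hu hcyc a₀ w hw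
  obtain ⟨y', hy'⟩ := hk y
  set z : V := a ((w - 1) ^ k) y with hz
  -- `z = D y' - y'`
  have hz1 : z = diaV hV (Pi.mulSingle j u) y' - y' := by
    apply Subtype.ext
    rw [hy', Submodule.coe_sub, coe_diaV]
  -- `D y = y`
  have hDy : diaV hV (Pi.mulSingle j u) y = y := Subtype.ext (by rw [coe_diaV]; exact hfix)
  -- `D z = z`
  have hDz : diaV hV (Pi.mulSingle j u) z = z := by
    rw [hz, hcomm, hDy]
  -- `D ^ m = ⟨u^m⟩`
  have hpow : ∀ (m : ℕ) (v : V),
      (fun v : V => diaV hV (Pi.mulSingle j u) v)^[m] v = diaV hV (Pi.mulSingle j (u ^ m)) v := by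
    intro m
    induction m with
    | zero =>
      intro v
      apply Subtype.ext
      rw [Function.iterate_zero, id, pow_zero, coe_diaV, Pi.mulSingle_one]
      exact (diaQ_one p t Smin qv 𝒪 _).symm
    | succ m ih =>
      intro v
      apply Subtype.ext
      rw [Function.iterate_succ_apply', ih, coe_diaV, coe_diaV, coe_diaV, pow_succ',
        ← diaQ_mul p t Smin qv 𝒪 hred, ← Pi.mulSingle_mul]
  have hm : (fun v : V => diaV hV (Pi.mulSingle j u) v)^[qv j - 1] y' = y' := by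
    rw [hpow]
    apply Subtype.ext
    rw [coe_diaV, ← hu, pow_orderOf_eq_one, Pi.mulSingle_one]
    exact diaQ_one p t Smin qv 𝒪 _
  have h1 : (qv j - 1) • z = 0 :=
    nsmul_eq_zero_of_fixed788 (fun v : V => diaV hV (Pi.mulSingle j u) v)
      (fun x y => map_sub (diaV hV (Pi.mulSingle j u)) x y) (qv j - 1) y' z hz1 hDz hm
  have hm0 : qv j - 1 ≠ 0 := by
    have := (hprime j).two_le
    omega
  have hz0 : z = 0 := by
    apply Subtype.ext
    rw [Submodule.coe_zero]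
    have h2 := congrArg (fun v : V => (v : XQ p t Smin qv 𝒪)) h1
    simp only [Submodule.coe_smul_of_tower, Submodule.coe_zero] at h2
    apply AddMonoidHom.ext
    intro γ
    have h3 := congrArg (fun f : XQ p t Smin qv 𝒪 => f γ) h2
    simp only [AddMonoidHom.smul_apply, AddMonoidHom.zero_apply, nsmul_eq_mul] at h3
    rcases mul_eq_zero.mp h3 with h4 | h4
    · exact absurd (Nat.cast_eq_zero.mp h4) hm0
    · exact h4
  -- conclusion
  have h2 : a (w - 1) y = 0 := apply_eq_zero_of_pow788 a y hy.1 hy.2 (w - 1) k hz0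
  have h3 : a w = a (w - 1) + 1 := by
    rw [← map_one a, ← map_add, sub_add_cancel]
  rw [h3, LinearMap.add_apply, h2, zero_add, Module.End.one_apply]

/-- **(T), power form**, as a closed statement in the context of `Aut.CmpStatement`. -/
def TpowStatement788 : Prop :=
  ∀ (p : ℕ) [Fact p.Prime]
    (𝒪 : Type) [CommRing 𝒪] [IsDomain 𝒪] [IsDiscreteValuationRing 𝒪]
    [IsAdicComplete (maximalIdeal 𝒪) 𝒪] [Finite (ResidueField 𝒪)] [CharZero 𝒪]
    (ρbar : ResidualGaloisRep (ResidueField 𝒪)) (Smin : Finset ℕ)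
    (_h : ResidualHyp p 𝒪 ρbar Smin) (t : PType)
    (_ht : (t = .flat ∧ (GaloisRepAdic.ofResidualGaloisRep ρbar).IsFlatAt p) ∨
      (t = .sord ∧ (GaloisRepAdic.ofResidualGaloisRep ρbar).IsStrictOrdinaryAt p ∧
        ¬ (GaloisRepAdic.ofResidualGaloisRep ρbar).IsFlatAt p))
    [NeZero (wilesLevel p t Smin Smin)]
    (P₀ : HeckePkg p 𝒪 ρbar t Smin Smin)
    (n r : ℕ) (qv : Fin r → ℕ) (_hq : IsTWSet p ρbar Smin n qv)
    [NeZero (wilesLevel p t Smin (Smin ∪ Finset.univ.image qv))]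
    (PQ : HeckePkg p 𝒪 ρbar t Smin (Smin ∪ Finset.univ.image qv))
    (res : PQ.T →ₐ[𝒪] P₀.T) (_hres : IsRestriction P₀ PQ res)
    (α : Fin r → 𝒪) (_hα : IsFrobLift ρbar qv α)
    (V : Submodule 𝒪 (XQ p t Smin qv 𝒪)) (h : ℕ) (a : PQ.T →ₐ[𝒪] Module.End 𝒪 V),
    IsQPart PQ α V → IsHalf p qv h → IsQAction PQ V h a → FreeAt V → TpowAt PQ V a

/-- **The leaf CMP by route B**: (T) from the power form, (R) from DICT-R and GAL-R. -/
theorem cmp_of_tpow_leaves788 (hFree : FreeQStatement) (hTp : TpowStatement788)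
    (hDR : DictRStatement) (hGR : GalRStatement) : CmpStatement := by
  intro p hpF 𝒪 _ _ _ _ _ _ ρbar Smin h t ht _ P₀ n r qv hq _ PQ res hres α hα V hh a hV hhalf ha
  have hfree : FreeAt V := hFree p 𝒪 ρbar Smin h t ht P₀ n r qv hq PQ res hres α hα V hV
  have hsub : ∀ (w : PQ.T) (y : V), a (w - 1) y = a w y - y := by
    intro w y
    have h1 : a w = a (w - 1) + 1 := by
      rw [← map_one a, ← map_add, sub_add_cancel]
    rw [h1, LinearMap.add_apply, Module.End.one_apply]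
    exact (add_sub_cancel_right (a (w - 1) y) y).symm
  have hT : TptAt PQ V a :=
    tptAt_of_tpowAt788 p 𝒪 ρbar Smin h t n r qv hq PQ α V hh a hV ha
      (hTp p 𝒪 ρbar Smin h t ht P₀ n r qv hq PQ res hres α hα V hh a hV hhalf ha hfree)
  have hR : RptAt PQ V a := by
    intro j P hP φ hφ σ hσ u hu hcyc a₀ w hw y hy hΦ hwy
    obtain ⟨O', _, _, _, _, _, _, emb, hloc, hker, hnew⟩ :=
      hDR p 𝒪 ρbar Smin h t ht n r qv hq PQ α hα V hh a hV hhalf ha j u hu y hy hΦ
    have h1 : emb w ≠ 1 :=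
      hGR p 𝒪 ρbar Smin h t n r qv hq PQ j P hP φ hφ σ hσ u hu hcyc a₀ w hw O' emb hloc hnew
    apply h1
    have h2 : a (w - 1) y = 0 := by
      rw [hsub, hwy]
      exact sub_self y
    have h3 := (hker (w - 1)).mp h2
    rw [map_sub, map_one, sub_eq_zero] at h3
    exact h3
  exact cmpGlue p 𝒪 ρbar Smin h t n r qv hq PQ α V hh a hV ha hfree hT hR

end Fermat.Agent.S59.TW.H788
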